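/-
Programme MAZ (S15), brick T1B-U8 CUSP'' (helper33), file 1: THE ABSTRACT ALGEBRA.

`A` an additive group, `J1 ≤ J0` and `Jext` subgroups, `Dg : A → ℤ → Prop` a "degree relation"
(`Dg z d`: the class `z` shifts Euler characteristics by `d`), `r1 r2 : A` two classes with
`Dg r_i e` (`e ≠ 0`; in the application `e = -1`, `r_i` the classes of two sections with smooth
reduction on the two components).  Hypotheses:

* `hadj`  : every `z ∈ Jext` becomes an element of `J0` after adding `m1 • r1 + m2 • r2`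
            (multidegree adjustment, `Bal60.exists_zpow_mul_mem_P00_fin2`);
* `htors` : `J0 / J1` is torsion  (the hypothesis `htors` of `K3Abs43.exists_local_division`);
* `hJ1`   : classes of `J1` have degree `0` (constancy of the Euler characteristic);
* `hc`    : `n₀ • (r1 - r2) ∈ J0`  (the cuspidal relation, helper20's part (c)).

Conclusion (`nsmul_mem_of_dg_zero`): `∀ z ∈ Jext, Dg z 0 → n₀ • z ∈ J0`.   Mathlib only.
-/
import Mathlib

set_option autoImplicit false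

namespace Fermat.Agent.MAZ.CuspJ0_33

variable {A : Type*} [AddCommGroup A]

/-- The axioms of a degree relation. -/
structure IsDegRel (Dg : A → ℤ → Prop) : Prop where
  add : ∀ {a b : A} {d e : ℤ}, Dg a d → Dg b e → Dg (a + b) (d + e)
  zsmul : ∀ {a : A} {d : ℤ} (n : ℤ), Dg a d → Dg (n • a) (n * d)

/-- A homomorphism to `ℤ` is a degree relation. -/
theorem isDegRel_of_hom (deg : A →+ ℤ) : IsDegRel (fun a d => deg a = d) where
  add := fun {a b d e} ha hb => by rw [map_add, ha, hb]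
  zsmul := fun {a d} n ha => by rw [map_zsmul, ha, smul_eq_mul]

variable {Dg : A → ℤ → Prop}

theorem IsDegRel.nsmul (H : IsDegRel Dg) {a : A} {d : ℤ} (n : ℕ) (ha : Dg a d) :
    Dg (n • a) ((n : ℤ) * d) := by
  have := H.zsmul (n : ℤ) ha
  rwa [natCast_zsmul] at this

/-- Elements of `J0` have degree `0`, as soon as `J0 / J1` is torsion and elements of `J1` have
degree `0`. -/
theorem dg_eq_zero_of_mem_J0 (H : IsDegRel Dg) (J0 J1 : AddSubgroup A)
    (htors : ∀ x ∈ J0, ∃ h : ℕ, 0 < h ∧ h • x ∈ J1)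
    (hJ1 : ∀ x ∈ J1, ∀ d : ℤ, Dg x d → d = 0)
    {w : A} (hw : w ∈ J0) {d : ℤ} (hd : Dg w d) : d = 0 := by
  obtain ⟨h, hh, hhw⟩ := htors w hw
  have h1 := hJ1 _ hhw _ (H.nsmul h hd)
  rcases mul_eq_zero.1 h1 with h2 | h2
  · exact absurd (Nat.cast_eq_zero.1 h2) (Nat.pos_iff_ne_zero.1 hh)
  · exact h2

/-- **CUSP'', abstract form.** -/
theorem nsmul_mem_of_dg_zero (H : IsDegRel Dg) (J0 J1 Jext : AddSubgroup A)
    (r1 r2 : A) (e : ℤ) (he : e ≠ 0) (hr1 : Dg r1 e) (hr2 : Dg r2 e)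
    (hadj : ∀ z ∈ Jext, ∃ m1 m2 : ℤ, z + m1 • r1 + m2 • r2 ∈ J0)
    (htors : ∀ x ∈ J0, ∃ h : ℕ, 0 < h ∧ h • x ∈ J1)
    (hJ1 : ∀ x ∈ J1, ∀ d : ℤ, Dg x d → d = 0)
    (n₀ : ℕ) (hc : n₀ • (r1 - r2) ∈ J0)
    (z : A) (hz : z ∈ Jext) (hz0 : Dg z 0) : n₀ • z ∈ J0 := by
  obtain ⟨m1, m2, hw⟩ := hadj z hz
  have hd : Dg (z + m1 • r1 + m2 • r2) (0 + m1 * e + m2 * e) :=
    H.add (H.add hz0 (H.zsmul m1 hr1)) (H.zsmul m2 hr2)
  have h0 := dg_eq_zero_of_mem_J0 H J0 J1 htors hJ1 hw hd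
  have hm : m1 + m2 = 0 := by
    have h1 : (m1 + m2) * e = 0 := by linarith
    rcases mul_eq_zero.1 h1 with h2 | h2
    · exact h2
    · exact absurd h2 he
  have hm2 : m2 = -m1 := by linarith
  have e1 : n₀ • z = n₀ • (z + m1 • r1 + m2 • r2) - m1 • (n₀ • (r1 - r2)) := by
    rw [hm2, smul_comm m1 n₀, ← smul_sub]
    congr 1
    rw [smul_sub, neg_smul]
    abel
  rw [e1]
  exact J0.sub_mem (J0.nsmul_mem hw _) (J0.zsmul_mem hc _)

/-- **CUSP'', abstract form, one-generator variant**: `hadj` with a single class `r = r1 - r2`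
(`z + m • r ∈ J0`); no degree is needed. -/
theorem nsmul_mem_of_adj_one (J0 Jext : AddSubgroup A) (r : A)
    (hadj : ∀ z ∈ Jext, ∃ m : ℤ, z + m • r ∈ J0)
    (n₀ : ℕ) (hc : n₀ • r ∈ J0) (z : A) (hz : z ∈ Jext) : n₀ • z ∈ J0 := by
  obtain ⟨m, hw⟩ := hadj z hz
  have e1 : n₀ • z = n₀ • (z + m • r) - m • (n₀ • r) := by
    rw [smul_add, smul_comm m n₀]
    abel
  rw [e1]
  exact J0.sub_mem (J0.nsmul_mem hw _) (J0.zsmul_mem hc _)

end Fermat.Agent.MAZ.CuspJ0_33
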