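/-
Programme MAZ (S15), brick T1B-U8 CUSP'' (helper33), file 5: THE MULTIDEGREE ADJUSTMENT ON THE
CONCRETE OBJECTS `JextTop`, `J0top` OF `T1B/Local66/Objects.lean`.

A family of "multidegree" homomorphisms `md E : Pic X_{O_E} →* (Fin 2 → Multiplicative ℤ)` with
`P00 E = ker (md E)` (in the application `md E = Bal60.Mdeg (hg E) (X E)`, `Bal60.P00_eq_ker`), a
level `E0` and two classes `y0 y1 : Pic X_{O_{E0}}` whose images at every level `E ≥ E0` have
multidegrees `-e_0`, `-e_1` (in the application: the classes of two sections with smooth reduction on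
the two components, `Bal60.Mdeg_ptClass0_on / _off`).  Then

  `exists_adjust : ∀ z ∈ JextTop c0, ∃ m0 m1 : ℤ, z + m0 • r0 + m1 • r1 ∈ J0top c0 P00 hPP`,

`r_i = ofMul (bcO c0 E0 y_i)`  (the hypothesis `hadj` of `CuspJ0_33.nsmul_mem_of_dg_zero`).
-/
import Mathlib
import Fermat.Agent.T1B.Local66.Objects

set_option autoImplicit false
set_option linter.unusedSectionVars false
set_option linter.style.haveILetI false
set_option synthInstance.maxHeartbeats 400000
set_option maxHeartbeats 1000000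

open Fermat.Agent.TW.B5.Iface Fermat.Agent.RED.Interface4 Fermat.Agent.T1.HubInst98
open Fermat.Agent.T1.IntSub47 Fermat.Agent.Jac Fermat.Agent.T1.RedIface75
open Fermat.Agent.T1B.Local66.LocalBase Fermat.Agent.T1B.Local66.Union
open Fermat.Agent.T1B.Local66.Objects

noncomputable section

namespace Fermat.Agent.MAZ.CuspJ0_33

/-! ### The algebra in `Fin 2 → Multiplicative ℤ` -/

/-- If `b0`, `b1` have "multidegrees" `-e_0`, `-e_1`, then `a * b0 ^ (a 0) * b1 ^ (a 1)` has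
multidegree `0`. -/
theorem md_adjust {G : Type*} [CommGroup G] (f : G →* (Fin 2 → Multiplicative ℤ)) (x b0 b1 : G)
    (h0 : f b0 = Pi.mulSingle (0 : Fin 2) (Multiplicative.ofAdd (-1 : ℤ)))
    (h1 : f b1 = Pi.mulSingle (1 : Fin 2) (Multiplicative.ofAdd (-1 : ℤ))) :
    f (x * b0 ^ (Multiplicative.toAdd (f x 0)) * b1 ^ (Multiplicative.toAdd (f x 1))) = 1 := by
  rw [map_mul, map_mul, map_zpow, map_zpow, h0, h1]
  funext j
  apply Multiplicative.toAdd.injective
  fin_cases j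
  · simp [toAdd_zpow]
  · simp [toAdd_zpow]

variable {p : ℕ} [Fact p.Prime] {K : IntermediateField ℚ Qbar} [Nonempty (NLevel p K)]
  {B0 B1 B01 : Type} [CommRing B0] [CommRing B1] [CommRing B01]
  [Algebra (Wb p K) B0] [Algebra (Wb p K) B1] [Algebra (Wb p K) B01] [Algebra B0 B01]
  [Algebra B1 B01] [IsScalarTower (Wb p K) B0 B01] [IsScalarTower (Wb p K) B1 B01]
  (c0 : TwoChart (Wb p K) B0 B1 B01)
  (P00 : ∀ E : NLevel p K, Subgroup (PicO c0 E)) (hPP : Compatible c0 P00)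

/-- **The multidegree adjustment**: every class of `JextTop` lies in `J0top` up to a combination of
the two classes `r_i = [bcO y_i]`. -/
theorem exists_adjust (md : ∀ E : NLevel p K, PicO c0 E →* (Fin 2 → Multiplicative ℤ))
    (hker : ∀ E, P00 E = (md E).ker) (E0 : NLevel p K) (y0 y1 : PicO c0 E0)
    (h0 : ∀ (E : NLevel p K) (h : E0 ≤ E), md E (bcOO c0 h y0) =
      Pi.mulSingle (0 : Fin 2) (Multiplicative.ofAdd (-1 : ℤ)))
    (h1 : ∀ (E : NLevel p K) (h : E0 ≤ E), md E (bcOO c0 h y1) =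
      Pi.mulSingle (1 : Fin 2) (Multiplicative.ofAdd (-1 : ℤ)))
    (z : Atop p K c0) (hz : z ∈ JextTop c0) :
    ∃ m0 m1 : ℤ, z + m0 • (Additive.ofMul (bcO c0 E0 y0) : Atop p K c0) +
      m1 • (Additive.ofMul (bcO c0 E0 y1) : Atop p K c0) ∈ J0top c0 P00 hPP := by
  obtain ⟨E, x, rfl⟩ := (mem_JextTop c0).1 hz
  set E' : NLevel p K := E0.sup E with hE'
  have hl : E0 ≤ E' := E0.le_sup_left E
  have hr : E ≤ E' := E0.le_sup_right E
  set x' : PicO c0 E' := bcOO c0 hr x with hx'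
  set b0 : PicO c0 E' := bcOO c0 hl y0 with hb0
  set b1 : PicO c0 E' := bcOO c0 hl y1 with hb1
  refine ⟨Multiplicative.toAdd (md E' x' 0), Multiplicative.toAdd (md E' x' 1), ?_⟩
  have hw : x' * b0 ^ (Multiplicative.toAdd (md E' x' 0)) *
      b1 ^ (Multiplicative.toAdd (md E' x' 1)) ∈ P00 E' := by
    rw [hker E', MonoidHom.mem_ker]
    exact md_adjust (md E') x' b0 b1 (h0 E' hl) (h1 E' hl)
  refine (mem_J0top c0 P00 hPP).2 ⟨E', _, hw, ?_⟩
  have e : bcO c0 E' (x' * b0 ^ (Multiplicative.toAdd (md E' x' 0)) *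
      b1 ^ (Multiplicative.toAdd (md E' x' 1))) =
      bcO c0 E x * bcO c0 E0 y0 ^ (Multiplicative.toAdd (md E' x' 0)) *
        bcO c0 E0 y1 ^ (Multiplicative.toAdd (md E' x' 1)) := by
    rw [map_mul (bcO c0 E'), map_mul (bcO c0 E'), map_zpow (bcO c0 E'), map_zpow (bcO c0 E'),
      hx', hb0, hb1, bcO_bcOO, bcO_bcOO, bcO_bcOO]
  rw [e]
  rfl

end Fermat.Agent.MAZ.CuspJ0_33
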