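/-
Programme MAZ (S15), brick T1B-U8 CUSP'' (helper33), file 7: **(ADJ1)**, THE ONE-SECTION ADJUSTMENT
(helper43's plan 16:05Z, consumer `K3Abs43/OneSection.k3_of_local_one`, hypothesis `hadj`).

`md E : Pic X_{O_E} →* (Fin 2 → Multiplicative ℤ)` a family of multidegree homomorphisms (in the
application `Bal60.Mdeg (hg E) (X E)`), `r₁ : PicO c0 E0` ONE class whose images at all levels `E ≥ E0`
have multidegree `-e_i` (helper60's ONE-SECTION), and the UNIFORM TWIST (helper20):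

  `htw : ∀ E (x : PicO c0 E) (b : ℤ), md E x 0 = ofAdd b → md E x 1 = ofAdd (-b) →
            ν • ofMul (bcO c0 E x) ∈ J0`.

Then  `adj_one : ∀ z ∈ JextTop c0, ∃ m : ℤ, ν • (z + m • ofMul (bcO c0 E0 r₁)) ∈ J0`.

`J0` is ANY additive subgroup of `Atop p K c0` here (in the application `J0top c0 P00 hPP`).
-/
import Mathlib
import Fermat.Agent.T1B.Local66.Objects

set_option autoImplicit false
set_option linter.unusedSectionVars false
set_option linter.style.haveILetI false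
set_option synthInstance.maxHeartbeats 400000
set_option maxHeartbeats 1000000

open Fermat.Agent.TW.B5.Iface Fermat.Agent.RED.Interface4 Fermat.Agent.T1.HubInst98
open Fermat.Agent.T1.IntSub47 Fermat.Agent.Jac Fermat.Agent.T1.RedIface75
open Fermat.Agent.T1B.Local66.LocalBase Fermat.Agent.T1B.Local66.Union
open Fermat.Agent.T1B.Local66.Objects

noncomputable section

namespace Fermat.Agent.MAZ.CuspJ0_33

/-! ### The algebra in `Fin 2 → Multiplicative ℤ` -/

/-- If `b₁` has "multidegree" `-e_i`, then `x * b₁ ^ (deg₀ x + deg₁ x)` has multidegree `(b, -b)`. -/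
theorem md_adjust_one {G : Type*} [CommGroup G] (f : G →* (Fin 2 → Multiplicative ℤ)) (x b₁ : G)
    (i : Fin 2) (h : f b₁ = Pi.mulSingle i (Multiplicative.ofAdd (-1 : ℤ))) :
    ∃ b : ℤ,
      f (x * b₁ ^ (Multiplicative.toAdd (f x 0) + Multiplicative.toAdd (f x 1))) 0 =
        Multiplicative.ofAdd b ∧
      f (x * b₁ ^ (Multiplicative.toAdd (f x 0) + Multiplicative.toAdd (f x 1))) 1 =
        Multiplicative.ofAdd (-b) := by
  rw [map_mul, map_zpow, h]
  fin_cases i
  · refine ⟨-Multiplicative.toAdd (f x 1), ?_, ?_⟩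
    · apply Multiplicative.toAdd.injective
      simp [toAdd_zpow]
    · apply Multiplicative.toAdd.injective
      simp
  · refine ⟨Multiplicative.toAdd (f x 0), ?_, ?_⟩
    · apply Multiplicative.toAdd.injective
      simp
    · apply Multiplicative.toAdd.injective
      simp [toAdd_zpow]

variable {p : ℕ} [Fact p.Prime] {K : IntermediateField ℚ Qbar} [Nonempty (NLevel p K)]
  {B0 B1 B01 : Type} [CommRing B0] [CommRing B1] [CommRing B01]
  [Algebra (Wb p K) B0] [Algebra (Wb p K) B1] [Algebra (Wb p K) B01] [Algebra B0 B01]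
  [Algebra B1 B01] [IsScalarTower (Wb p K) B0 B01] [IsScalarTower (Wb p K) B1 B01]
  (c0 : TwoChart (Wb p K) B0 B1 B01)

/-- **(ADJ1)**: the one-section adjustment. -/
theorem adj_one (J0 : AddSubgroup (Atop p K c0))
    (md : ∀ E : NLevel p K, PicO c0 E →* (Fin 2 → Multiplicative ℤ))
    (E0 : NLevel p K) (r₁ : PicO c0 E0) (i : Fin 2)
    (h1 : ∀ (E : NLevel p K) (h : E0 ≤ E), md E (bcOO c0 h r₁) =
      Pi.mulSingle i (Multiplicative.ofAdd (-1 : ℤ)))
    (ν : ℕ)
    (htw : ∀ (E : NLevel p K) (x : PicO c0 E) (b : ℤ), md E x 0 = Multiplicative.ofAdd b →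
      md E x 1 = Multiplicative.ofAdd (-b) →
      ν • (Additive.ofMul (bcO c0 E x) : Atop p K c0) ∈ J0)
    (z : Atop p K c0) (hz : z ∈ JextTop c0) :
    ∃ m : ℤ, ν • (z + m • (Additive.ofMul (bcO c0 E0 r₁) : Atop p K c0)) ∈ J0 := by
  obtain ⟨E, x, rfl⟩ := (mem_JextTop c0).1 hz
  set E' : NLevel p K := E0.sup E with hE'
  have hl : E0 ≤ E' := E0.le_sup_left E
  have hr : E ≤ E' := E0.le_sup_right E
  set x' : PicO c0 E' := bcOO c0 hr x with hx'
  set b₁ : PicO c0 E' := bcOO c0 hl r₁ with hb₁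
  set m : ℤ := Multiplicative.toAdd (md E' x' 0) + Multiplicative.toAdd (md E' x' 1) with hm
  obtain ⟨b, hb0, hb1⟩ := md_adjust_one (md E') x' b₁ i (h1 E' hl)
  have hw := htw E' (x' * b₁ ^ m) b hb0 hb1
  refine ⟨m, ?_⟩
  have e : bcO c0 E' (x' * b₁ ^ m) = bcO c0 E x * bcO c0 E0 r₁ ^ m := by
    rw [map_mul (bcO c0 E'), map_zpow (bcO c0 E'), hx', hb₁, bcO_bcOO, bcO_bcOO]
  rw [e] at hw
  exact hw

/-- **(ADJ1)**, two-sided form used with a degree: as `adj_one`, for `J0 := J0top c0 P00 hPP`. -/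
theorem adj_one_J0top (P00 : ∀ E : NLevel p K, Subgroup (PicO c0 E)) (hPP : Compatible c0 P00)
    (md : ∀ E : NLevel p K, PicO c0 E →* (Fin 2 → Multiplicative ℤ))
    (E0 : NLevel p K) (r₁ : PicO c0 E0) (i : Fin 2)
    (h1 : ∀ (E : NLevel p K) (h : E0 ≤ E), md E (bcOO c0 h r₁) =
      Pi.mulSingle i (Multiplicative.ofAdd (-1 : ℤ)))
    (ν : ℕ)
    (htw : ∀ (E : NLevel p K) (x : PicO c0 E) (b : ℤ), md E x 0 = Multiplicative.ofAdd b →
      md E x 1 = Multiplicative.ofAdd (-b) →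
      ν • (Additive.ofMul (bcO c0 E x) : Atop p K c0) ∈ J0top c0 P00 hPP) :
    ∀ z ∈ JextTop c0, ∃ m : ℤ,
      ν • (z + m • (Additive.ofMul (bcO c0 E0 r₁) : Atop p K c0)) ∈ J0top c0 P00 hPP :=
  adj_one c0 (J0top c0 P00 hPP) md E0 r₁ i h1 ν htw

end Fermat.Agent.MAZ.CuspJ0_33
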