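/-
Programme MAZ (S15), brick T1B-U8 CUSP'' (helper33), file 8: **(ADJ1')**, THE NON-UNIFORM ONE-SECTION
ADJUSTMENT (helper43's update 2, consumer `K3Abs43/OneSection.k3_of_local_one'`, hypothesis `hadj`).

As `Adjust1.lean`, but the exponent killing a class of multidegree `(b, -b)` may depend on the level:

  `htw : ∀ E (x : PicO c0 E) (b : ℤ), md E x 0 = ofAdd b → md E x 1 = ofAdd (-b) →
            ∃ n > 0, n • ofMul (bcO c0 E x) ∈ J0`           (`adj_one_level`)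
  resp. `… → ∃ n > 0, ∃ y ∈ P00 E, bcO c0 E y = bcO c0 E x ^ n`   (`adj_one_level_J0top`, the output
  (b) `pow_mem_J0top_level` of helper77's TWIST-LEVELS).

Conclusion: `∀ z ∈ JextTop c0, ∃ n > 0, ∃ m : ℤ, n • (z + m • ofMul (bcO c0 E0 r₁)) ∈ J0`.
-/
import Mathlib
import Fermat.Agent.MAZ.CuspJ0_33.Adjust1

set_option autoImplicit false
set_option linter.unusedSectionVars false
set_option linter.style.haveILetI false
set_option synthInstance.maxHeartbeats 400000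
set_option maxHeartbeats 1000000

open Fermat.Agent.TW.B5.Iface Fermat.Agent.RED.Interface4 Fermat.Agent.T1.HubInst98
open Fermat.Agent.T1.IntSub47 Fermat.Agent.Jac Fermat.Agent.T1.RedIface75
open Fermat.Agent.T1B.Local66.LocalBase Fermat.Agent.T1B.Local66.Union
open Fermat.Agent.T1B.Local66.Objects

noncomputable section

namespace Fermat.Agent.MAZ.CuspJ0_33

variable {p : ℕ} [Fact p.Prime] {K : IntermediateField ℚ Qbar} [Nonempty (NLevel p K)]
  {B0 B1 B01 : Type} [CommRing B0] [CommRing B1] [CommRing B01]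
  [Algebra (Wb p K) B0] [Algebra (Wb p K) B1] [Algebra (Wb p K) B01] [Algebra B0 B01]
  [Algebra B1 B01] [IsScalarTower (Wb p K) B0 B01] [IsScalarTower (Wb p K) B1 B01]
  (c0 : TwoChart (Wb p K) B0 B1 B01)

/-- **(ADJ1')**: the non-uniform one-section adjustment, abstract `J0`. -/
theorem adj_one_level (J0 : AddSubgroup (Atop p K c0))
    (md : ∀ E : NLevel p K, PicO c0 E →* (Fin 2 → Multiplicative ℤ))
    (E0 : NLevel p K) (r₁ : PicO c0 E0) (i : Fin 2)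
    (h1 : ∀ (E : NLevel p K) (h : E0 ≤ E), md E (bcOO c0 h r₁) =
      Pi.mulSingle i (Multiplicative.ofAdd (-1 : ℤ)))
    (htw : ∀ (E : NLevel p K) (x : PicO c0 E) (b : ℤ), md E x 0 = Multiplicative.ofAdd b →
      md E x 1 = Multiplicative.ofAdd (-b) →
      ∃ n : ℕ, 0 < n ∧ n • (Additive.ofMul (bcO c0 E x) : Atop p K c0) ∈ J0)
    (z : Atop p K c0) (hz : z ∈ JextTop c0) :
    ∃ n : ℕ, 0 < n ∧ ∃ m : ℤ,
      n • (z + m • (Additive.ofMul (bcO c0 E0 r₁) : Atop p K c0)) ∈ J0 := by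
  obtain ⟨E, x, rfl⟩ := (mem_JextTop c0).1 hz
  set E' : NLevel p K := E0.sup E with hE'
  have hl : E0 ≤ E' := E0.le_sup_left E
  have hr : E ≤ E' := E0.le_sup_right E
  set x' : PicO c0 E' := bcOO c0 hr x with hx'
  set b₁ : PicO c0 E' := bcOO c0 hl r₁ with hb₁
  set m : ℤ := Multiplicative.toAdd (md E' x' 0) + Multiplicative.toAdd (md E' x' 1) with hm
  obtain ⟨b, hb0, hb1⟩ := md_adjust_one (md E') x' b₁ i (h1 E' hl)
  obtain ⟨n, hn, hw⟩ := htw E' (x' * b₁ ^ m) b hb0 hb1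
  refine ⟨n, hn, m, ?_⟩
  have e : bcO c0 E' (x' * b₁ ^ m) = bcO c0 E x * bcO c0 E0 r₁ ^ m := by
    rw [map_mul (bcO c0 E'), map_zpow (bcO c0 E'), hx', hb₁, bcO_bcOO, bcO_bcOO]
  rw [e] at hw
  exact hw

/-- **(ADJ1')** for `J0top c0 P00 hPP`, with the twist hypothesis in the shape of helper77's
`pow_mem_J0top_level`. -/
theorem adj_one_level_J0top (P00 : ∀ E : NLevel p K, Subgroup (PicO c0 E))
    (hPP : Compatible c0 P00)
    (md : ∀ E : NLevel p K, PicO c0 E →* (Fin 2 → Multiplicative ℤ))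
    (E0 : NLevel p K) (r₁ : PicO c0 E0) (i : Fin 2)
    (h1 : ∀ (E : NLevel p K) (h : E0 ≤ E), md E (bcOO c0 h r₁) =
      Pi.mulSingle i (Multiplicative.ofAdd (-1 : ℤ)))
    (htw : ∀ (E : NLevel p K) (x : PicO c0 E) (b : ℤ), md E x 0 = Multiplicative.ofAdd b →
      md E x 1 = Multiplicative.ofAdd (-b) →
      ∃ n : ℕ, 0 < n ∧ ∃ y ∈ P00 E, bcO c0 E y = bcO c0 E x ^ n) :
    ∀ z ∈ JextTop c0, ∃ n : ℕ, 0 < n ∧ ∃ m : ℤ,
      n • (z + m • (Additive.ofMul (bcO c0 E0 r₁) : Atop p K c0)) ∈ J0top c0 P00 hPP := by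
  refine adj_one_level c0 (J0top c0 P00 hPP) md E0 r₁ i h1 ?_
  intro E x b hb0 hb1
  obtain ⟨n, hn, y, hy, hyx⟩ := htw E x b hb0 hb1
  refine ⟨n, hn, (mem_J0top c0 P00 hPP).2 ⟨E, y, hy, ?_⟩⟩
  rw [hyx]
  rfl

end Fermat.Agent.MAZ.CuspJ0_33
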