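/-
Programme MAZ (S15), brick T1B-U8 CUSP'' (helper33), file 2: THE EULER-SHIFT ("DEGREE") RELATION ON
THE PICARD GROUP OF A TWO-CHART CURVE OVER A FIELD.  No integrality hypothesis on the charts: only
`c.FiniteProjOverLine`.

* `chiPic c : LinePic c → ℤ`                        : the Euler characteristic of a class;
* `Shift c ξ d := ∀ ζ, chiPic (ξ * ζ) = chiPic ζ + d` : `ξ` has degree `d`;
  `shift_one`, `Shift.mul`, `Shift.inv`, `Shift.zpow`, `Shift.pow`, `Shift.unique`, `Shift.chiPic_eq`,
  `Shift.prod` (finite products);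
* `shift_ofIdeals_ratPoint` : the ideal sheaf of a rational point has degree `-1`;
* `shift_ptClass0`, `shift_ptClass1`, `shift_of_isPtClass` : point classes over a field `F` of the hub
  `c0` have degree `-1`; `exists_shift_of_mem_picPt` : every element of `PicPt F` has a degree.
-/
import Mathlib
import Fermat.Agent.Jac.AbelJacobi73.PointChi
import Fermat.Agent.Jac.JGroup85Pic
import Fermat.Agent.T1.PtLine75

set_option autoImplicit false
set_option linter.unusedSectionVars false
set_option linter.style.haveILetI false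

universe u

open TensorProduct

namespace Fermat.Agent.MAZ.CuspJ0_33

open Fermat.Agent.Jac Fermat.Agent.Jac.LineOps39 Fermat.Agent.Jac.JGroup85Pic
  Fermat.Agent.Jac.AbelJacobi73 Fermat.Agent.T1.RedIface75 Fermat.Agent.T1.PtLine75
open scoped Fermat.Agent.Jac.BaseChange75

section Field

variable {K R0 R1 R01 : Type u} [Field K] [CommRing R0] [CommRing R1] [CommRing R01]
  [Algebra K R0] [Algebra K R1] [Algebra K R01] [Algebra R0 R01] [Algebra R1 R01]
  [IsScalarTower K R0 R01] [IsScalarTower K R1 R01]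
  (c : TwoChart K R0 R1 R01)

/-- The Euler characteristic of a class of lines. -/
noncomputable def chiPic : LinePic c → ℤ :=
  Quotient.lift (fun L : LineObj c => L.1.chiField K)
    (fun L M (h : Nonempty (QC2.Iso L.1 M.1)) => ChiBC36.chiField_iso h.some K)

theorem chiPic_mk {L : QC2 K R0 R1 R01} (hL : L.IsLine) :
    chiPic c (LinePic.mk c L hL) = L.chiField K := rfl

/-- `ξ` shifts Euler characteristics by `d`. -/
def Shift (ξ : LinePic c) (d : ℤ) : Prop := ∀ ζ : LinePic c, chiPic c (ξ * ζ) = chiPic c ζ + d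

theorem shift_one : Shift c 1 0 := fun ζ => by rw [one_mul, add_zero]

variable {c}

theorem Shift.mul {ξ η : LinePic c} {d e : ℤ} (hξ : Shift c ξ d) (hη : Shift c η e) :
    Shift c (ξ * η) (d + e) := fun ζ => by
  rw [mul_assoc, hξ, hη]; ring

theorem Shift.inv {ξ : LinePic c} {d : ℤ} (hξ : Shift c ξ d) : Shift c ξ⁻¹ (-d) := fun ζ => by
  have h := hξ (ξ⁻¹ * ζ)
  rw [mul_inv_cancel_left] at h
  rw [h]; ring

theorem Shift.pow {ξ : LinePic c} {d : ℤ} (hξ : Shift c ξ d) (n : ℕ) :
    Shift c (ξ ^ n) (n * d) := by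
  induction n with
  | zero => simpa using shift_one c
  | succ n ih =>
    rw [pow_succ]
    have := ih.mul hξ
    convert this using 1
    push_cast; ring

theorem Shift.zpow {ξ : LinePic c} {d : ℤ} (hξ : Shift c ξ d) (n : ℤ) :
    Shift c (ξ ^ n) (n * d) := by
  obtain ⟨k, rfl | rfl⟩ := n.eq_nat_or_neg
  · rw [zpow_natCast]
    exact hξ.pow k
  · rw [zpow_neg, zpow_natCast]
    have := (hξ.pow k).inv
    convert this using 1
    ring

theorem Shift.chiPic_eq {ξ : LinePic c} {d : ℤ} (hξ : Shift c ξ d) :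
    chiPic c ξ = chiPic c 1 + d := by
  have := hξ 1
  rwa [mul_one] at this

theorem Shift.unique {ξ : LinePic c} {d d' : ℤ} (h : Shift c ξ d) (h' : Shift c ξ d') : d = d' := by
  have h1 := h.chiPic_eq
  have h2 := h'.chiPic_eq
  linarith

theorem Shift.congr {ξ : LinePic c} {d d' : ℤ} (h : Shift c ξ d) (hd : d = d') : Shift c ξ d' :=
  hd ▸ h

/-- Finite products. -/
theorem Shift.prod {ι : Type*} (s : Finset ι) (ξ : ι → LinePic c) (d : ι → ℤ)
    (h : ∀ i ∈ s, Shift c (ξ i) (d i)) : Shift c (∏ i ∈ s, ξ i) (∑ i ∈ s, d i) := by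
  classical
  induction s using Finset.induction_on with
  | empty => simpa using shift_one c
  | insert a s ha ih =>
    rw [Finset.prod_insert ha, Finset.sum_insert ha]
    exact (h a (Finset.mem_insert_self a s)).mul
      (ih fun i hi => h i (Finset.mem_insert_of_mem hi))

/-- A class of degree `d` and Euler characteristic `χ(O)` has `d = 0`. -/
theorem Shift.eq_zero_of_chiPic_eq {ξ : LinePic c} {d : ℤ} (h : Shift c ξ d)
    (hχ : chiPic c ξ = chiPic c 1) : d = 0 := by
  have h1 := h.chiPic_eq
  linarith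

variable (c)

/-- **The ideal sheaf of a rational point has degree `-1`.** -/
theorem shift_ofIdeals_ratPoint (hc : c.FiniteProjOverLine) (X : IdealPair R0 R1 R01)
    (hX : IsRatPointPair c X) (hline : (ofIdeals c X).IsLine) :
    Shift c (LinePic.mk c (ofIdeals c X) hline) (-1) := by
  intro ζ
  obtain ⟨L, hL, rfl⟩ := LinePic.exists_rep ζ
  rw [LinePic.mk_mul_mk, chiPic_mk, chiPic_mk]
  have e : QC2.Iso (tensor (ofIdeals c X) L) (downTwist c L X) :=
    tensorOfIdealsIso c X (isVB_of_isLine hL)
  have hdl : (downTwist c L X).IsLine := isLine_of_iso e (isLine_tensor hline hL)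
  rw [ChiBC36.chiField_iso e K, chiField_eq_chiK, chiField_eq_chiK,
    chiK_downTwist_ratPoint c L hL X hX (finCoh_of_isLine c hc hL) (finCoh_of_isLine c hc hdl).fin1]
  ring

end Field

/-! ### Point classes of the hub over a field -/

section Hub

variable {W B0 B1 B01 : Type u} [CommRing W] [CommRing B0] [CommRing B1] [CommRing B01]
  [Algebra W B0] [Algebra W B1] [Algebra W B01] [Algebra B0 B01] [Algebra B1 B01]
  [IsScalarTower W B0 B01] [IsScalarTower W B1 B01]
  (c0 : TwoChart W B0 B1 B01)
  (F : Type u) [Field F] [Algebra W F]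

/-- The ideal of an `F`-point is maximal. -/
theorem isMaximal_ptIdeal {B : Type u} [CommRing B] [Algebra W B] (q : B →ₐ[W] F) :
    (ptIdeal q : Ideal (F ⊗[W] B)).IsMaximal :=
  RingHom.ker_isMaximal_of_surjective (ptEval q) (ptEval_surjective q)

/-- The residue field of an `F`-point is `F`. -/
theorem surjective_algebraMap_quot_ptIdeal {B : Type u} [CommRing B] [Algebra W B]
    (q : B →ₐ[W] F) : Function.Surjective (algebraMap F ((F ⊗[W] B) ⧸ ptIdeal q)) := by
  intro y
  refine ⟨quotPtIdealEquiv q y, ?_⟩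
  apply (quotPtIdealEquiv q).injective
  rw [AlgEquiv.commutes]
  rfl

variable (hfp : (c0.baseChange F).FiniteProjOverLine)

include hfp in
/-- A point class of chart 0 over a field has degree `-1`. -/
theorem shift_ptClass0 (q : B0 →ₐ[W] F) (h : Module.Invertible (F ⊗[W] B0) (ptIdeal q)) :
    Shift (c0.baseChange F) (ptClass0 c0 q h) (-1) :=
  shift_ofIdeals_ratPoint (c0.baseChange F) hfp (ptPair0 c0 q)
    (Or.inl ⟨ptIdeal q, isMaximal_ptIdeal F q, surjective_algebraMap_quot_ptIdeal F q, rfl⟩)
    (isLine_ptPair0 c0 q h)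

include hfp in
/-- A point class of chart 1 over a field has degree `-1`. -/
theorem shift_ptClass1 (q : B1 →ₐ[W] F) (h : Module.Invertible (F ⊗[W] B1) (ptIdeal q)) :
    Shift (c0.baseChange F) (ptClass1 c0 q h) (-1) :=
  shift_ofIdeals_ratPoint (c0.baseChange F) hfp (ptPair1 c0 q)
    (Or.inr ⟨ptIdeal q, isMaximal_ptIdeal F q, surjective_algebraMap_quot_ptIdeal F q, rfl⟩)
    (isLine_ptPair1 c0 q h)

include hfp in
/-- **Point classes over a field have degree `-1`.** -/
theorem shift_of_isPtClass {x : PicX c0 F} (hx : IsPtClass c0 F x) :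
    Shift (c0.baseChange F) x (-1) := by
  rcases hx with ⟨q, h, rfl⟩ | ⟨q, h, rfl⟩
  · exact shift_ptClass0 c0 F hfp q h
  · exact shift_ptClass1 c0 F hfp q h

include hfp in
/-- Every class generated by point classes has a degree. -/
theorem exists_shift_of_mem_picPt {x : PicX c0 F} (hx : x ∈ (pointClasses c0).PicPt F) :
    ∃ d : ℤ, Shift (c0.baseChange F) x d := by
  have hx' : x ∈ Subgroup.closure {x | IsPtClass c0 F x} := hx
  clear hx
  induction hx' using Subgroup.closure_induction with
  | mem y hy => exact ⟨-1, shift_of_isPtClass c0 F hfp hy⟩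
  | one => exact ⟨0, shift_one _⟩
  | mul y z _ _ hy hz =>
    obtain ⟨d, hd⟩ := hy
    obtain ⟨e, he⟩ := hz
    exact ⟨d + e, hd.mul he⟩
  | inv y _ hy =>
    obtain ⟨d, hd⟩ := hy
    exact ⟨-d, hd.inv⟩

end Hub

end Fermat.Agent.MAZ.CuspJ0_33
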