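/-
Programme MAZ (S15), brick T1B-U8 CUSP'' (helper33), file 3: CONSTANCY OF THE EULER CHARACTERISTIC
ALONG THE HUB `Pic X_O → Pic X_F`.

`c0 : TwoChart W B0 B1 B01` finite projective over the line, `O` a `W`-algebra, `F` a field over `O`.

* `chiPic_map_mk`  : `χ_F (L_F) = L.chiField F` for a line `L` on `X_O`;
* `chiPic_map_eq`  : for a DOMAIN `O` (connected spectrum) and two fields `F`, `F'` over `O`:
                     `χ_F (x_F) = χ_{F'} (x_{F'})` for every class `x ∈ Pic X_O`
                     (`P1CohChi.isLocallyConstant_chi` + `chiField_eq_chi`);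
* `chiPic_map_eq_one_of_red` : `O` a DVR, `x ∈ J̃¹(O)` (trivial special fibre) ⇒ `χ_F (x_F) = χ_F (O)`;
* `shift_eq_zero_of_red`     : hence a degree (`Shift`) of `x_F` is `0`.
-/
import Mathlib
import Fermat.Agent.MAZ.CuspJ0_33.Shift
import Fermat.Agent.Jac.P1CohChi.Main

set_option autoImplicit false
set_option linter.unusedSectionVars false
set_option linter.style.haveILetI false

universe u

open TensorProduct

namespace Fermat.Agent.MAZ.CuspJ0_33

open Fermat.Agent.Jac Fermat.Agent.Jac.LineOps39 Fermat.Agent.Jac.JGroup85Pic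
  Fermat.Agent.Jac.BaseChange75 Fermat.Agent.Jac.JSmooth85Alg
  Fermat.Agent.T1.RedIface75 Fermat.Agent.T1.PtLine75
open scoped Fermat.Agent.Jac.BaseChange75

variable {W B0 B1 B01 : Type u} [CommRing W] [CommRing B0] [CommRing B1] [CommRing B01]
  [Algebra W B0] [Algebra W B1] [Algebra W B01] [Algebra B0 B01] [Algebra B1 B01]
  [IsScalarTower W B0 B01] [IsScalarTower W B1 B01]
  (c0 : TwoChart W B0 B1 B01)

section Map

variable (O : Type u) [CommRing O] [Algebra W O]
  (F : Type u) [Field F] [Algebra W F] [Algebra O F] [IsScalarTower W O F]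

/-- The Euler characteristic of the fibre over `F` of the class of a line `M` on `X_O`. -/
theorem chiPic_map_mk {M : QC2 O (O ⊗[W] B0) (O ⊗[W] B1) (O ⊗[W] B01)} (hM : M.IsLine) :
    chiPic (c0.baseChange F) (PicX.map c0 O F (LinePic.mk (c0.baseChange O) M hM)) =
      M.chiField F := by
  have h := liftData_bcCube (A' := F) (square_comm W O F B0 B01) (square_comm W O F B1 B01) M
  have e : PicX.map c0 O F (LinePic.mk (c0.baseChange O) M hM) =
      LinePic.mk (c0.baseChange F) _ (LiftData.isLine h hM) :=
    LinePic.bc_mk (square_comm W O F B0 B01) (square_comm W O F B1 B01) (c0.baseChange O)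
      (c0.baseChange F) hM h
  rw [e, chiPic_mk]
  exact ChiBC36.chiField_liftData h F

/-- The point of `Spec O` below a field `F`. -/
noncomputable def ptBelow : PrimeSpectrum O :=
  PrimeSpectrum.comap (algebraMap O F) ⟨⊥, Ideal.isPrime_bot⟩

variable (hfp : c0.FiniteProjOverLine)

include hfp in
/-- The Euler characteristic of the fibre over `F` is the fibrewise Euler characteristic at the point
of `Spec O` below `F`. -/
theorem chiPic_map_mk_eq_chi {M : QC2 O (O ⊗[W] B0) (O ⊗[W] B1) (O ⊗[W] B01)} (hM : M.IsLine) :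
    chiPic (c0.baseChange F) (PicX.map c0 O F (LinePic.mk (c0.baseChange O) M hM)) =
      M.chi (ptBelow O F) := by
  rw [chiPic_map_mk]
  exact (P1CohChi.chiField_eq_chi (c0.baseChange O) M
    (finiteOverLine_of_isLine _ (hfp.baseChange O) hM)
    (projOverLine_of_isLine _ (hfp.baseChange O) hM) F ⟨⊥, Ideal.isPrime_bot⟩).2.2

end Map

section Const

variable (O : Type u) [CommRing O] [IsDomain O] [Algebra W O]
  (F : Type u) [Field F] [Algebra W F] [Algebra O F] [IsScalarTower W O F]
  (F' : Type u) [Field F'] [Algebra W F'] [Algebra O F'] [IsScalarTower W O F']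
  (hfp : c0.FiniteProjOverLine)

include hfp in
/-- **Constancy of the Euler characteristic**: over a domain `O`, the Euler characteristics of the
fibres of a class `x ∈ Pic X_O` over any two `O`-fields agree. -/
theorem chiPic_map_eq (x : PicX c0 O) :
    chiPic (c0.baseChange F) (PicX.map c0 O F x) =
      chiPic (c0.baseChange F') (PicX.map c0 O F' x) := by
  obtain ⟨M, hM, rfl⟩ := LinePic.exists_rep x
  rw [chiPic_map_mk_eq_chi c0 O F hfp hM, chiPic_map_mk_eq_chi c0 O F' hfp hM]
  have hlc := P1CohChi.isLocallyConstant_chi (c0.baseChange O) M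
    (finiteOverLine_of_isLine _ (hfp.baseChange O) hM)
    (projOverLine_of_isLine _ (hfp.baseChange O) hM)
  exact hlc.apply_eq_of_preconnectedSpace _ _

end Const

section Red

variable (O : Type u) [CommRing O] [IsDomain O] [IsDiscreteValuationRing O] [Algebra W O]
  (F : Type u) [Field F] [Algebra W F] [Algebra O F] [IsScalarTower W O F]
  (hfp : c0.FiniteProjOverLine)

include hfp in
/-- **A class with trivial special fibre has the Euler characteristic of `O` on every fibre.** -/
theorem chiPic_map_eq_one_of_red {x : PicX c0 O} (hx : red c0 O x = 1) :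
    chiPic (c0.baseChange F) (PicX.map c0 O F x) = chiPic (c0.baseChange F) 1 := by
  have h1 := chiPic_map_eq c0 O F (IsLocalRing.ResidueField O) hfp x
  have h2 := chiPic_map_eq c0 O F (IsLocalRing.ResidueField O) hfp 1
  have hx' : PicX.map c0 O (IsLocalRing.ResidueField O) x = 1 := hx
  rw [hx'] at h1
  rw [map_one, map_one] at h2
  rw [h1, h2]

include hfp in
/-- **A degree of the fibre over `F` of a class with trivial special fibre is `0`.** -/
theorem shift_eq_zero_of_red {x : PicX c0 O} (hx : red c0 O x = 1) {d : ℤ}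
    (hd : Shift (c0.baseChange F) (PicX.map c0 O F x) d) : d = 0 :=
  hd.eq_zero_of_chiPic_eq (chiPic_map_eq_one_of_red c0 O F hfp hx)

end Red

end Fermat.Agent.MAZ.CuspJ0_33
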