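/-
Programme MAZ (S15), brick T1B-U8 CUSP'' (helper33), file 4: THE DEGREE RELATION ON
`A = Atop p K c0 = Additive (Pic X_{ℚ̄_p})` AND ITS VANISHING ON `J1top`.

* `ShiftTop c0 z d`            : the class `z` has degree `d` (`Shift` of `CuspJ0_33/Shift.lean`);
* `isDegRel_shiftTop`          : it is a degree relation (`CuspJ0_33/Abstract.lean`);
* `shiftTop_unique`, `shiftTop_zero`, `ShiftTop.sum` (finite sums);
* `shiftTop_of_isPtClass`      : point classes over `ℚ̄_p` have degree `-1`;
  `shiftTop_bcE_of_isPtClass`, `shiftTop_bcO_of_isPtClass` : images of point classes over `E`, `O_E`;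
  `exists_shiftTop_of_mem_PtTop` : every element of `PtTop c0` has a degree;
* `shiftTop_eq_zero_of_bcO_J1Fam`, **`shiftTop_eq_zero_of_mem_J1top`** : classes of `J1top` have
  degree `0` (constancy of the Euler characteristic on `Spec O_E`).
-/
import Mathlib
import Fermat.Agent.MAZ.CuspJ0_33.Abstract
import Fermat.Agent.MAZ.CuspJ0_33.Const
import Fermat.Agent.T1B.Local66.Objects

set_option autoImplicit false
set_option linter.unusedSectionVars false
set_option linter.style.haveILetI false
set_option synthInstance.maxHeartbeats 400000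
set_option maxHeartbeats 1000000

open Fermat.Agent.TW.B5.Iface Fermat.Agent.RED.Interface4 Fermat.Agent.T1.HubInst98
open Fermat.Agent.T1.IntSub47 Fermat.Agent.Jac Fermat.Agent.T1.RedIface75
open Fermat.Agent.T1.PtLine75
open Fermat.Agent.T1B.Local66.LocalBase Fermat.Agent.T1B.Local66.Union
open Fermat.Agent.T1B.Local66.Objects
open Fermat.Agent.T1B.Bridge54.IpUnion
open scoped Fermat.Agent.Jac.BaseChange75

noncomputable section

namespace Fermat.Agent.MAZ.CuspJ0_33

variable {p : ℕ} [Fact p.Prime] {K : IntermediateField ℚ Qbar}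
  {B0 B1 B01 : Type} [CommRing B0] [CommRing B1] [CommRing B01]
  [Algebra (Wb p K) B0] [Algebra (Wb p K) B1] [Algebra (Wb p K) B01] [Algebra B0 B01]
  [Algebra B1 B01] [IsScalarTower (Wb p K) B0 B01] [IsScalarTower (Wb p K) B1 B01]
  (c0 : TwoChart (Wb p K) B0 B1 B01)

/-- **The degree relation on `A = Pic X_{ℚ̄_p}`**: `z` shifts Euler characteristics by `d`. -/
def ShiftTop (z : Atop p K c0) (d : ℤ) : Prop :=
  letI := algWKbar p K
  Shift (c0.baseChange (Kbar p)) (Additive.toMul z) d

theorem shiftTop_iff {z : Atop p K c0} {d : ℤ} :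
    ShiftTop c0 z d ↔
      (letI := algWKbar p K
       Shift (c0.baseChange (Kbar p)) (Additive.toMul z) d) := Iff.rfl

theorem shiftTop_zero : ShiftTop c0 (0 : Atop p K c0) 0 := by
  letI := algWKbar p K
  exact shift_one (c0.baseChange (Kbar p))

theorem ShiftTop.add {a b : Atop p K c0} {d e : ℤ} (ha : ShiftTop c0 a d) (hb : ShiftTop c0 b e) :
    ShiftTop c0 (a + b) (d + e) := by
  letI := algWKbar p K
  exact Shift.mul (c := c0.baseChange (Kbar p)) ha hb

theorem ShiftTop.neg {a : Atop p K c0} {d : ℤ} (ha : ShiftTop c0 a d) : ShiftTop c0 (-a) (-d) := by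
  letI := algWKbar p K
  exact Shift.inv (c := c0.baseChange (Kbar p)) ha

theorem ShiftTop.sub {a b : Atop p K c0} {d e : ℤ} (ha : ShiftTop c0 a d) (hb : ShiftTop c0 b e) :
    ShiftTop c0 (a - b) (d - e) := by
  rw [sub_eq_add_neg, sub_eq_add_neg]
  exact ha.add c0 (hb.neg c0)

theorem ShiftTop.zsmul {a : Atop p K c0} {d : ℤ} (n : ℤ) (ha : ShiftTop c0 a d) :
    ShiftTop c0 (n • a) (n * d) := by
  letI := algWKbar p K
  exact Shift.zpow (c := c0.baseChange (Kbar p)) ha n

theorem ShiftTop.nsmul {a : Atop p K c0} {d : ℤ} (n : ℕ) (ha : ShiftTop c0 a d) :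
    ShiftTop c0 (n • a) (n * d) := by
  letI := algWKbar p K
  exact Shift.pow (c := c0.baseChange (Kbar p)) ha n

theorem shiftTop_unique {a : Atop p K c0} {d d' : ℤ} (h : ShiftTop c0 a d) (h' : ShiftTop c0 a d') :
    d = d' := by
  letI := algWKbar p K
  exact Shift.unique (c := c0.baseChange (Kbar p)) h h'

/-- Finite sums. -/
theorem ShiftTop.sum {ι : Type*} (s : Finset ι) (a : ι → Atop p K c0) (d : ι → ℤ)
    (h : ∀ i ∈ s, ShiftTop c0 (a i) (d i)) : ShiftTop c0 (∑ i ∈ s, a i) (∑ i ∈ s, d i) := by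
  classical
  induction s using Finset.induction_on with
  | empty => simpa using shiftTop_zero c0
  | insert i s hi ih =>
    rw [Finset.sum_insert hi, Finset.sum_insert hi]
    exact (h i (Finset.mem_insert_self i s)).add c0
      (ih fun j hj => h j (Finset.mem_insert_of_mem hj))

/-- `ShiftTop` is a degree relation. -/
theorem isDegRel_shiftTop : IsDegRel (ShiftTop c0) where
  add := fun ha hb => ha.add c0 hb
  zsmul := fun n ha => ha.zsmul c0 n

/-! ### Point classes -/

section Points

variable (hfp : c0.FiniteProjOverLine)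

include hfp in
/-- Point classes over `ℚ̄_p` have degree `-1`. -/
theorem shiftTop_of_isPtClass {x : PicTop p K c0}
    (hx : letI := algWKbar p K
      IsPtClass c0 (Kbar p) x) :
    ShiftTop c0 (Additive.ofMul x) (-1) := by
  letI := algWKbar p K
  exact shift_of_isPtClass c0 (Kbar p) (hfp.baseChange (Kbar p)) hx

include hfp in
/-- The image in `A` of a point class over `E`. -/
theorem shiftTop_bcE_of_isPtClass (E : NLevel p K) {x : PicE c0 E}
    (hx : letI := algWE E.lev
      IsPtClass c0 ↥E.E x) :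
    ShiftTop c0 (Additive.ofMul (bcE c0 E x)) (-1) := by
  refine shiftTop_of_isPtClass c0 hfp ?_
  letI := algWE E.lev
  letI := algWKbar p K
  letI := algEKbar E.E
  haveI := tower_W_E_Kbar E.lev
  exact IsPtClass.map c0 hx

include hfp in
/-- The image in `A` of a point class over `O_E`. -/
theorem shiftTop_bcO_of_isPtClass (E : NLevel p K) {x : PicO c0 E}
    (hx : letI := algWO E.lev
      IsPtClass c0 ↥(intSubring p E.E) x) :
    ShiftTop c0 (Additive.ofMul (bcO c0 E x)) (-1) := by
  refine shiftTop_of_isPtClass c0 hfp ?_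
  letI := algWO E.lev
  letI := algWKbar p K
  letI := algOKbar E.E
  haveI := tower_W_O_Kbar E.lev
  exact IsPtClass.map c0 hx

include hfp in
/-- Every element of `PtTop c0` has a degree. -/
theorem exists_shiftTop_of_mem_PtTop [Nonempty (NLevel p K)] {y : Atop p K c0}
    (hy : y ∈ PtTop c0) : ∃ d : ℤ, ShiftTop c0 y d := by
  letI := algWKbar p K
  exact exists_shift_of_mem_picPt c0 (Kbar p) (hfp.baseChange (Kbar p))
    (toMul_mem_picPt_of_mem_PtTop c0 hy)

end Points

/-! ### Classes with trivial special fibre have degree `0` -/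

section J1

variable (hfp : c0.FiniteProjOverLine)

include hfp in
/-- The image in `A` of a class of `J̃¹(O_E)` has degree `0`. -/
theorem shiftTop_eq_zero_of_bcO_J1Fam (E : NLevel p K) {x : PicO c0 E} (hx : x ∈ J1Fam c0 E)
    {d : ℤ} (hd : ShiftTop c0 (Additive.ofMul (bcO c0 E x)) d) : d = 0 := by
  letI := algWO E.lev
  letI := algWKbar p K
  letI := algOKbar E.E
  haveI := tower_W_O_Kbar E.lev
  haveI := isDVR_O E.E
  exact shift_eq_zero_of_red c0 ↥(intSubring p E.E) (Kbar p) hfp hx hd

variable [Nonempty (NLevel p K)] (P00 : ∀ E : NLevel p K, Subgroup (PicO c0 E))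
  (hPP : Compatible c0 P00)

include hfp in
/-- **Classes of `J1top` have degree `0`.** -/
theorem shiftTop_eq_zero_of_mem_J1top {z : Atop p K c0} (hz : z ∈ J1top c0 P00 hPP) {d : ℤ}
    (hd : ShiftTop c0 z d) : d = 0 := by
  obtain ⟨E, x, hx, rfl⟩ := (mem_J1top c0 P00 hPP).1 hz
  exact shiftTop_eq_zero_of_bcO_J1Fam c0 hfp E (Subgroup.mem_inf.1 hx).2 hd

end J1

end Fermat.Agent.MAZ.CuspJ0_33
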