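/-
Programme MAZ (S15), brick T1B-U8 CUSP'' (helper33), file 6: **CUSP'' ON THE CONCRETE OBJECTS**, from
the cuspidal relation (c) (helper20) and the torsion hypothesis `htors` of
`K3Abs43.exists_local_division`.

`c0 : TwoChart (Wb p K) B0 B1 B01` finite projective over the line; `P00`, `hPP` as in
`Local66/Objects.lean`; `md E` a family of multidegree homomorphisms with `P00 E = ker (md E)`;
`y0 y1 : PicO c0 E0` two classes with multidegrees `-e_0`, `-e_1` at every level `≥ E0`, of degree `e ≠ 0`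
on the generic fibre (`e = -1` for point classes: `cusp_of_ptClasses`).  Then

  `cusp_of_relation : n₀ • (r0 - r1) ∈ J0top → ∀ z ∈ JextTop c0, ShiftTop c0 z 0 → n₀ • z ∈ J0top`.

`deg_zero_of_mem_J0top` : elements of `J0top` have degree `0` (given `htors`).
-/
import Mathlib
import Fermat.Agent.MAZ.CuspJ0_33.Top
import Fermat.Agent.MAZ.CuspJ0_33.Adjust

set_option autoImplicit false
set_option linter.unusedSectionVars false
set_option linter.style.haveILetI false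
set_option synthInstance.maxHeartbeats 400000
set_option maxHeartbeats 1000000

open Fermat.Agent.TW.B5.Iface Fermat.Agent.RED.Interface4 Fermat.Agent.T1.HubInst98
open Fermat.Agent.T1.IntSub47 Fermat.Agent.Jac Fermat.Agent.T1.RedIface75
open Fermat.Agent.T1.PtLine75
open Fermat.Agent.T1B.Local66.LocalBase Fermat.Agent.T1B.Local66.Union
open Fermat.Agent.T1B.Local66.Objects
open scoped Fermat.Agent.Jac.BaseChange75

noncomputable section

namespace Fermat.Agent.MAZ.CuspJ0_33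

variable {p : ℕ} [Fact p.Prime] {K : IntermediateField ℚ Qbar} [Nonempty (NLevel p K)]
  {B0 B1 B01 : Type} [CommRing B0] [CommRing B1] [CommRing B01]
  [Algebra (Wb p K) B0] [Algebra (Wb p K) B1] [Algebra (Wb p K) B01] [Algebra B0 B01]
  [Algebra B1 B01] [IsScalarTower (Wb p K) B0 B01] [IsScalarTower (Wb p K) B1 B01]
  (c0 : TwoChart (Wb p K) B0 B1 B01) (hfp : c0.FiniteProjOverLine)
  (P00 : ∀ E : NLevel p K, Subgroup (PicO c0 E)) (hPP : Compatible c0 P00)
  (htors : ∀ x ∈ J0top c0 P00 hPP, ∃ h : ℕ, 0 < h ∧ h • x ∈ J1top c0 P00 hPP)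

include hfp htors in
/-- Elements of `J0top` have degree `0` (given that `J0top / J1top` is torsion). -/
theorem deg_zero_of_mem_J0top {w : Atop p K c0} (hw : w ∈ J0top c0 P00 hPP) {d : ℤ}
    (hd : ShiftTop c0 w d) : d = 0 :=
  dg_eq_zero_of_mem_J0 (isDegRel_shiftTop c0) (J0top c0 P00 hPP) (J1top c0 P00 hPP) htors
    (fun _ hx _ hd => shiftTop_eq_zero_of_mem_J1top c0 hfp P00 hPP hx hd) hw hd

include hfp htors in
/-- **CUSP'' from the cuspidal relation.** -/
theorem cusp_of_relation (md : ∀ E : NLevel p K, PicO c0 E →* (Fin 2 → Multiplicative ℤ))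
    (hker : ∀ E, P00 E = (md E).ker) (E0 : NLevel p K) (y0 y1 : PicO c0 E0)
    (h0 : ∀ (E : NLevel p K) (h : E0 ≤ E), md E (bcOO c0 h y0) =
      Pi.mulSingle (0 : Fin 2) (Multiplicative.ofAdd (-1 : ℤ)))
    (h1 : ∀ (E : NLevel p K) (h : E0 ≤ E), md E (bcOO c0 h y1) =
      Pi.mulSingle (1 : Fin 2) (Multiplicative.ofAdd (-1 : ℤ)))
    (e : ℤ) (he : e ≠ 0)
    (hy0 : ShiftTop c0 (Additive.ofMul (bcO c0 E0 y0)) e)
    (hy1 : ShiftTop c0 (Additive.ofMul (bcO c0 E0 y1)) e)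
    (n₀ : ℕ)
    (hc : n₀ • ((Additive.ofMul (bcO c0 E0 y0) : Atop p K c0) - Additive.ofMul (bcO c0 E0 y1)) ∈
      J0top c0 P00 hPP)
    (z : Atop p K c0) (hz : z ∈ JextTop c0) (hz0 : ShiftTop c0 z 0) :
    n₀ • z ∈ J0top c0 P00 hPP :=
  nsmul_mem_of_dg_zero (isDegRel_shiftTop c0) (J0top c0 P00 hPP) (J1top c0 P00 hPP) (JextTop c0)
    _ _ e he hy0 hy1 (exists_adjust c0 P00 hPP md hker E0 y0 y1 h0 h1) htors
    (fun _ hx _ hd => shiftTop_eq_zero_of_mem_J1top c0 hfp P00 hPP hx hd) n₀ hc z hz hz0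

include hfp htors in
/-- **CUSP'' for two point classes** `y0 y1` (classes of `O_{E0}`-points with smooth reduction on the two
components). -/
theorem cusp_of_ptClasses (md : ∀ E : NLevel p K, PicO c0 E →* (Fin 2 → Multiplicative ℤ))
    (hker : ∀ E, P00 E = (md E).ker) (E0 : NLevel p K) (y0 y1 : PicO c0 E0)
    (h0 : ∀ (E : NLevel p K) (h : E0 ≤ E), md E (bcOO c0 h y0) =
      Pi.mulSingle (0 : Fin 2) (Multiplicative.ofAdd (-1 : ℤ)))
    (h1 : ∀ (E : NLevel p K) (h : E0 ≤ E), md E (bcOO c0 h y1) =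
      Pi.mulSingle (1 : Fin 2) (Multiplicative.ofAdd (-1 : ℤ)))
    (hy0 : letI := algWO E0.lev
      IsPtClass c0 ↥(intSubring p E0.E) y0)
    (hy1 : letI := algWO E0.lev
      IsPtClass c0 ↥(intSubring p E0.E) y1)
    (n₀ : ℕ)
    (hc : n₀ • ((Additive.ofMul (bcO c0 E0 y0) : Atop p K c0) - Additive.ofMul (bcO c0 E0 y1)) ∈
      J0top c0 P00 hPP) :
    ∀ z ∈ JextTop c0, ShiftTop c0 z 0 → n₀ • z ∈ J0top c0 P00 hPP :=
  cusp_of_relation c0 hfp P00 hPP htors md hker E0 y0 y1 h0 h1 (-1) (by norm_num)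
    (shiftTop_bcO_of_isPtClass c0 hfp E0 hy0) (shiftTop_bcO_of_isPtClass c0 hfp E0 hy1) n₀ hc

include hfp htors in
/-- The degree-free consequence of the adjustment: the two multidegree coordinates of a class of
`JextTop` of degree `0` are opposite, i.e. `z + m • (r0 - r1) ∈ J0top` for some `m`. -/
theorem exists_adjust_one (md : ∀ E : NLevel p K, PicO c0 E →* (Fin 2 → Multiplicative ℤ))
    (hker : ∀ E, P00 E = (md E).ker) (E0 : NLevel p K) (y0 y1 : PicO c0 E0)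
    (h0 : ∀ (E : NLevel p K) (h : E0 ≤ E), md E (bcOO c0 h y0) =
      Pi.mulSingle (0 : Fin 2) (Multiplicative.ofAdd (-1 : ℤ)))
    (h1 : ∀ (E : NLevel p K) (h : E0 ≤ E), md E (bcOO c0 h y1) =
      Pi.mulSingle (1 : Fin 2) (Multiplicative.ofAdd (-1 : ℤ)))
    (e : ℤ) (he : e ≠ 0)
    (hy0 : ShiftTop c0 (Additive.ofMul (bcO c0 E0 y0)) e)
    (hy1 : ShiftTop c0 (Additive.ofMul (bcO c0 E0 y1)) e)
    (z : Atop p K c0) (hz : z ∈ JextTop c0) (hz0 : ShiftTop c0 z 0) :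
    ∃ m : ℤ, z + m • ((Additive.ofMul (bcO c0 E0 y0) : Atop p K c0) -
      Additive.ofMul (bcO c0 E0 y1)) ∈ J0top c0 P00 hPP := by
  obtain ⟨m0, m1, hw⟩ := exists_adjust c0 P00 hPP md hker E0 y0 y1 h0 h1 z hz
  have hd : ShiftTop c0 (z + m0 • (Additive.ofMul (bcO c0 E0 y0) : Atop p K c0) +
      m1 • (Additive.ofMul (bcO c0 E0 y1) : Atop p K c0)) (0 + m0 * e + m1 * e) :=
    (hz0.add c0 (hy0.zsmul c0 m0)).add c0 (hy1.zsmul c0 m1)
  have hzero := deg_zero_of_mem_J0top c0 hfp P00 hPP htors hw hd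
  have hm : m1 = -m0 := by
    have h2 : (m0 + m1) * e = 0 := by linarith
    rcases mul_eq_zero.1 h2 with h3 | h3
    · linarith
    · exact absurd h3 he
  refine ⟨m0, ?_⟩
  have e1 : z + m0 • ((Additive.ofMul (bcO c0 E0 y0) : Atop p K c0) -
      Additive.ofMul (bcO c0 E0 y1)) =
      z + m0 • (Additive.ofMul (bcO c0 E0 y0) : Atop p K c0) +
        m1 • (Additive.ofMul (bcO c0 E0 y1) : Atop p K c0) := by
    rw [hm, smul_sub, neg_smul]
    abel
  rw [e1]
  exact hw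

end Fermat.Agent.MAZ.CuspJ0_33
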